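import Mathlib

/-!
# Row LT, tower A2, leaf A2.03.1.1.06.05 `LF54.LeafGauss` (helper323), OFF-MAIN : CHARACTERS

* `eq_one_of_forall_pow_near323` : a complex number `z` of absolute value `1` with
  `‖z ^ m - 1‖ < 1` for all `m` is `1` (no small subgroups in the circle).
* `char_eq_one_near_zero323` : a continuous unitary additive character of an ultrametric normed
  field is trivial on a ball around `0`.
Mathlib only.
-/

set_option autoImplicit false
set_option linter.style.haveILetI false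
set_option linter.unusedSectionVars false

noncomputable section

namespace Fermat.Agent.LT.A2.H323

/-- **No small subgroups.** -/
theorem eq_one_of_forall_pow_near323 (z : ℂ) (hz : ‖z‖ = 1)
    (h : ∀ m : ℕ, ‖z ^ m - 1‖ < 1) : z = 1 := by
  by_contra hne
  have hre : ∀ m : ℕ, (1 : ℝ) / 2 < (z ^ m).re := by
    intro m
    have h1 := h m
    have h2 : ‖z ^ m‖ = 1 := by rw [norm_pow, hz, one_pow]
    have h3 : ‖z ^ m - 1‖ ^ 2 = ‖z ^ m‖ ^ 2 - 2 * (z ^ m).re + 1 := by
      rw [Complex.sq_norm, Complex.sq_norm, Complex.normSq_apply, Complex.normSq_apply]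
      simp only [Complex.sub_re, Complex.one_re, Complex.sub_im, Complex.one_im, sub_zero]
      ring
    have h4 : ‖z ^ m - 1‖ ^ 2 < 1 := by nlinarith [norm_nonneg (z ^ m - 1)]
    rw [h3, h2] at h4
    linarith
  have hz1 : z - 1 ≠ 0 := sub_ne_zero.mpr hne
  have hz1' : 0 < ‖z - 1‖ := norm_pos_iff.mpr hz1
  have hgeom : ∀ N : ℕ, ‖∑ i ∈ Finset.range N, z ^ i‖ ≤ 2 / ‖z - 1‖ := by
    intro N
    rw [geom_sum_eq hne, norm_div]
    apply div_le_div_of_nonneg_right _ (norm_nonneg _)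
    calc ‖z ^ N - 1‖ ≤ ‖z ^ N‖ + ‖(1 : ℂ)‖ := norm_sub_le _ _
      _ = 2 := by rw [norm_pow, hz, one_pow, norm_one]; norm_num
  have hsum : ∀ N : ℕ, (N : ℝ) / 2 ≤ (∑ i ∈ Finset.range N, z ^ i).re := by
    intro N
    rw [Complex.re_sum]
    calc (N : ℝ) / 2 = ∑ _i ∈ Finset.range N, (1 : ℝ) / 2 := by
          rw [Finset.sum_const, Finset.card_range, nsmul_eq_mul]; ring
      _ ≤ ∑ i ∈ Finset.range N, (z ^ i).re := Finset.sum_le_sum fun i _ => (hre i).le
  obtain ⟨N, hN⟩ := exists_nat_gt (2 * (2 / ‖z - 1‖))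
  have := (hsum N).trans ((Complex.re_le_norm _).trans (hgeom N))
  linarith

/-- **A continuous unitary additive character of an ultrametric normed field is trivial near
`0`.** -/
theorem char_eq_one_near_zero323 {k : Type*} [NormedField k] [IsUltrametricDist k] (ψ : k → ℂ)
    (hc : Continuous ψ) (hm : ∀ x y : k, ψ (x + y) = ψ x * ψ y) (hu : ∀ x : k, ‖ψ x‖ = 1) :
    ψ 0 = 1 ∧ ∃ ε : ℝ, 0 < ε ∧ ∀ x : k, ‖x‖ ≤ ε → ψ x = 1 := by
  have h0 : ψ 0 = 1 := by
    have h1 := hm 0 0
    rw [add_zero] at h1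
    have hne : ψ 0 ≠ 0 := by
      intro h
      have := hu 0
      rw [h, norm_zero] at this
      exact zero_ne_one this
    have h2 : ψ 0 * ψ 0 = ψ 0 * 1 := by rw [← h1, mul_one]
    exact mul_left_cancel₀ hne h2
  refine ⟨h0, ?_⟩
  have hcont := hc.continuousAt (x := 0)
  rw [Metric.continuousAt_iff] at hcont
  obtain ⟨δ, hδ, hδ'⟩ := hcont 1 one_pos
  refine ⟨δ / 2, by positivity, fun x hx => ?_⟩
  have hpow : ∀ m : ℕ, ψ ((m : k) * x) = ψ x ^ m := by
    intro m
    induction m with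
    | zero => simp [h0]
    | succ m ih => rw [Nat.cast_succ, add_mul, one_mul, hm, ih, pow_succ]
  apply eq_one_of_forall_pow_near323 _ (hu x)
  intro m
  rw [← hpow m]
  have hnorm : ‖(m : k) * x‖ < δ := by
    rw [norm_mul]
    calc ‖(m : k)‖ * ‖x‖ ≤ 1 * ‖x‖ :=
          mul_le_mul_of_nonneg_right (IsUltrametricDist.norm_natCast_le_one k m) (norm_nonneg _)
      _ = ‖x‖ := one_mul _
      _ ≤ δ / 2 := hx
      _ < δ := by linarith
  have := hδ' (x := (m : k) * x) (by rwa [dist_zero_right])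
  rw [h0, dist_eq_norm] at this
  exact this

end Fermat.Agent.LT.A2.H323

end
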