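import Mathlib

/-!
# Row LT, tower A2, leaf A2.03.1.1.06.05 `LF54.LeafGauss` (helper323), OFF-MAIN : CUT-OFFS

For an ultrametric normed group `V` (later `V = k × k`):

* `cut323 r` : the indicator function of the closed ball of radius `r` (a subgroup), with values
  in `ℂ`; it is invariant under the translations by the elements of the ball, continuous
  (the ball is clopen) and has compact support (`V` proper).
* `integral_cut_mul_eq_zero323` : ORTHOGONALITY, `∫ χ_r g = 0` for a multiplicative function `g`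
  which is not `1` somewhere on the ball.
* `integral_cut_ne_zero323` : `∫ χ_r ≠ 0`.
* `exists_unif_locConst323` : a locally constant function with compact support is invariant
  under the translations by a small ball (Lebesgue number).
* `exists_norm_le_of_ne_zero323` : a function with compact support vanishes outside a ball.
Mathlib only.
-/

set_option autoImplicit false
set_option linter.style.haveILetI false
set_option linter.unusedSectionVars false

open MeasureTheory

noncomputable section

namespace Fermat.Agent.LT.A2.H323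

section Plain

variable {V : Type*} [NormedAddCommGroup V]

/-- A locally constant function with compact support is uniformly locally constant. -/
theorem exists_unif_locConst323 (Φ : V → ℂ) (h1 : IsLocallyConstant Φ)
    (h2 : HasCompactSupport Φ) :
    ∃ ε : ℝ, 0 < ε ∧ ∀ z h : V, ‖h‖ ≤ ε → Φ (z + h) = Φ z := by
  obtain ⟨δ, hδ, hδ'⟩ := lebesgue_number_lemma_of_metric (s := tsupport Φ)
    (c := fun w : ℂ => Φ ⁻¹' {w}) h2 (fun w => h1.isOpen_fiber w)
    (fun z _ => Set.mem_iUnion.mpr ⟨Φ z, rfl⟩)
  have key : ∀ z ∈ tsupport Φ, ∀ h : V, ‖h‖ ≤ δ / 2 → Φ (z + h) = Φ z := by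
    intro z hz h hh
    obtain ⟨w, hw⟩ := hδ' z hz
    have m1 : z ∈ Metric.ball z δ := Metric.mem_ball_self hδ
    have m2 : z + h ∈ Metric.ball z δ := by
      rw [Metric.mem_ball, dist_eq_norm, add_sub_cancel_left]
      linarith
    have e1 : Φ z = w := hw m1
    have e2 : Φ (z + h) = w := hw m2
    rw [e1, e2]
  refine ⟨δ / 2, by positivity, fun z h hh => ?_⟩
  by_cases hz : z ∈ tsupport Φ
  · exact key z hz h hh
  · by_cases hz' : z + h ∈ tsupport Φ
    · have := key (z + h) hz' (-h) (by rwa [norm_neg])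
      rw [add_neg_cancel_right] at this
      exact this.symm
    · rw [image_eq_zero_of_notMem_tsupport hz, image_eq_zero_of_notMem_tsupport hz']

/-- A function with compact support vanishes outside a ball. -/
theorem exists_norm_le_of_ne_zero323 (Φ : V → ℂ) (h2 : HasCompactSupport Φ) :
    ∃ ρ : ℝ, 0 ≤ ρ ∧ ∀ z : V, Φ z ≠ 0 → ‖z‖ ≤ ρ := by
  obtain ⟨C, hC⟩ := isBounded_iff_forall_norm_le.mp h2.isCompact.isBounded
  exact ⟨max C 0, le_max_right _ _,
    fun z hz => (hC z (subset_tsupport _ hz)).trans (le_max_left _ _)⟩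

end Plain

section Cut

variable {V : Type*} [NormedAddCommGroup V] [IsUltrametricDist V]

/-- The cut-off function of the closed ball of radius `r`. -/
def cut323 (r : ℝ) : V → ℂ := Set.indicator (Metric.closedBall (0 : V) r) (fun _ => (1 : ℂ))

theorem cut_of_le323 {r : ℝ} {y : V} (h : ‖y‖ ≤ r) : cut323 r y = 1 :=
  Set.indicator_of_mem (by rwa [Metric.mem_closedBall, dist_zero_right]) _

theorem cut_of_lt323 {r : ℝ} {y : V} (h : r < ‖y‖) : cut323 r y = 0 :=
  Set.indicator_of_notMem (by rw [Metric.mem_closedBall, dist_zero_right]; exact not_le.mpr h) _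

theorem cut_ne_zero323 {r : ℝ} {y : V} (h : cut323 r y ≠ 0) : ‖y‖ ≤ r := by
  by_contra h1
  exact h (cut_of_lt323 (not_le.mp h1))

theorem norm_add_le_iff323 {r : ℝ} {y h : V} (hh : ‖h‖ ≤ r) : ‖y + h‖ ≤ r ↔ ‖y‖ ≤ r := by
  constructor
  · intro h1
    have : y = (y + h) + (-h) := by abel
    rw [this]
    exact (IsUltrametricDist.norm_add_le_max _ _).trans (max_le h1 (by rwa [norm_neg]))
  · intro h1
    exact (IsUltrametricDist.norm_add_le_max _ _).trans (max_le h1 hh)

theorem cut_add323 {r : ℝ} {y h : V} (hh : ‖h‖ ≤ r) : cut323 r (y + h) = cut323 r y := by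
  by_cases h1 : ‖y‖ ≤ r
  · rw [cut_of_le323 h1, cut_of_le323 ((norm_add_le_iff323 hh).mpr h1)]
  · rw [cut_of_lt323 (not_le.mp h1),
      cut_of_lt323 (not_le.mp fun h2 => h1 ((norm_add_le_iff323 hh).mp h2))]

theorem continuous_cut323 {r : ℝ} (hr : 0 < r) : Continuous (cut323 (V := V) r) :=
  (IsUltrametricDist.isClopen_closedBall (0 : V) hr.ne').continuous_indicator continuous_const

theorem hasCompactSupport_cut323 [ProperSpace V] (r : ℝ) :
    HasCompactSupport (cut323 (V := V) r) :=
  HasCompactSupport.intro (isCompact_closedBall 0 r) fun _ hy => Set.indicator_of_notMem hy _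

variable [MeasurableSpace V] [BorelSpace V]

/-- **Orthogonality.** -/
theorem integral_cut_mul_eq_zero323 (ν : Measure V) [ν.IsAddLeftInvariant] {r : ℝ} (g : V → ℂ)
    (hg : ∀ x y : V, g (x + y) = g x * g y) (h₀ : V) (hh₀ : ‖h₀‖ ≤ r) (hne : g h₀ ≠ 1) :
    ∫ h, cut323 r h * g h ∂ν = 0 := by
  have h1 := integral_add_left_eq_self (μ := ν) (fun h => cut323 r h * g h) h₀
  have h2 : ∀ h : V, cut323 r (h₀ + h) * g (h₀ + h) = g h₀ * (cut323 r h * g h) := by
    intro h
    rw [add_comm h₀ h, cut_add323 hh₀, add_comm h h₀, hg]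
    ring
  simp only [h2] at h1
  rw [integral_const_mul] at h1
  have h3 : (g h₀ - 1) * ∫ h, cut323 r h * g h ∂ν = 0 := by
    rw [sub_mul, one_mul, h1, sub_self]
  rcases mul_eq_zero.mp h3 with h4 | h4
  · exact absurd (sub_eq_zero.mp h4) hne
  · exact h4

/-- The integral of the cut-off function is not zero. -/
theorem integral_cut_ne_zero323 [ProperSpace V] (ν : Measure V) [IsFiniteMeasureOnCompacts ν]
    [ν.IsOpenPosMeasure] {r : ℝ} (hr : 0 < r) : ∫ h, cut323 (V := V) r h ∂ν ≠ 0 := by
  have h1 : ∫ h, cut323 (V := V) r h ∂ν = ν.real (Metric.closedBall (0 : V) r) • (1 : ℂ) :=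
    integral_indicator_const (1 : ℂ) Metric.isClosed_closedBall.measurableSet
  rw [h1]
  have h2 : 0 < ν (Metric.closedBall (0 : V) r) := Metric.measure_closedBall_pos ν 0 hr
  have h3 : ν (Metric.closedBall (0 : V) r) < ⊤ := (isCompact_closedBall 0 r).measure_lt_top
  have h4 : ν.real (Metric.closedBall (0 : V) r) ≠ 0 :=
    (ENNReal.toReal_pos h2.ne' h3.ne).ne'
  simpa using h4

end Cut

end Fermat.Agent.LT.A2.H323

end
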