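import Mathlib
import Fermat.Agent.LT.A2.H323.Gauss.Char
import Fermat.Agent.LT.A2.H323.Gauss.Cut

/-!
# Row LT, tower A2, leaf A2.03.1.1.06.05 `LF54.LeafGauss` (helper323), OFF-MAIN : THE CORE

Abstract form of the Gauss identity of Weil (1964, § 14, th. 2).

`k` an ultrametric normed field, `V` an ultrametric proper normed `k`-space with a translation
invariant measure `ν` (finite on compact sets, positive on open sets), `Q : V → k` a quadratic
form with polar form `B` (`QData323`: continuity, `Q(y + z) = Q(y) + B(y, z) + Q(z)`, bilinearity,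
`Q(c y) = c² Q(y)`, and NONDEGENERACY in the form `sup_{‖h‖ ≤ 1} ‖B(y, h)‖ ≤ M ⟹ ‖y‖ ≤ C M`),
`ψ` a nontrivial continuous unitary character of `k` (`CharData323`).

* `exists_bound_of_orth323` : `{y : ψ(a B(y, h)) = 1 for ‖h‖ ≤ ε}` is bounded.
* `exists_stab323` : `∫ χ_r ψ(a Q)` does not depend on `r ≥ r₁(a)`.
* `ft_eq_zero_of_large323` : the Fourier transform of a Schwartz--Bruhat function vanishes
  outside a ball.
* `gauss_identity323` : for `a ≠ 0` there is `g` with
  `∫ ψ(a Q(y)) FT Φ(y) ψ(B(ξ, y)) dy = g ∫ Φ(z) ψ(-Q(z + ξ) / a) dz` for all Schwartz--Bruhat `Φ`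
  and all `ξ`.
-/

set_option autoImplicit false
set_option linter.style.haveILetI false
set_option linter.unusedSectionVars false

open MeasureTheory

noncomputable section

namespace Fermat.Agent.LT.A2.H323

/-- A nondegenerate quadratic form `Q` on `V` with polar form `B`. -/
structure QData323 (k V : Type*) [NormedField k] [NormedAddCommGroup V] [NormedSpace k V]
    (Q : V → k) (B : V → V → k) : Prop where
  contQ : Continuous Q
  contB : Continuous fun p : V × V => B p.1 p.2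
  add : ∀ y z : V, Q (y + z) = Q y + B y z + Q z
  B_add : ∀ y z z' : V, B y (z + z') = B y z + B y z'
  B_symm : ∀ y z : V, B y z = B z y
  B_smul : ∀ (c : k) (y z : V), B y (c • z) = c * B y z
  Q_smul : ∀ (c : k) (y : V), Q (c • y) = c ^ 2 * Q y
  nondeg : ∃ C : ℝ, ∀ (y : V) (M : ℝ), (∀ h : V, ‖h‖ ≤ 1 → ‖B y h‖ ≤ M) → ‖y‖ ≤ C * M

/-- A nontrivial continuous unitary additive character. -/
structure CharData323 (k : Type*) [NormedField k] (ψ : k → ℂ) : Prop where
  cont : Continuous ψ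
  mul : ∀ x y : k, ψ (x + y) = ψ x * ψ y
  unit : ∀ x : k, ‖ψ x‖ = 1
  nontriv : ∃ x : k, ψ x ≠ 1

section Core

variable {k : Type*} [NormedField k] [IsUltrametricDist k]
variable {V : Type*} [NormedAddCommGroup V] [NormedSpace k V] [IsUltrametricDist V]
variable {Q : V → k} {B : V → V → k} {ψ : k → ℂ}

theorem CharData323.zero (hψ : CharData323 k ψ) : ψ 0 = 1 :=
  (char_eq_one_near_zero323 ψ hψ.cont hψ.mul hψ.unit).1

theorem QData323.zero (hQ : QData323 k V Q B) : Q 0 = 0 := by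
  have := hQ.Q_smul 0 0
  rw [zero_smul] at this
  rw [this]
  ring

/-- `ψ(a Q(h)) = 1` for small `h`. -/
theorem exists_eps_Q323 (hQ : QData323 k V Q B) (hψ : CharData323 k ψ) (a : k) :
    ∃ ε : ℝ, 0 < ε ∧ ∀ h : V, ‖h‖ ≤ ε → ψ (a * Q h) = 1 := by
  obtain ⟨-, ε₀, hε₀, h1⟩ := char_eq_one_near_zero323 ψ hψ.cont hψ.mul hψ.unit
  have hc : Continuous fun h : V => a * Q h := continuous_const.mul hQ.contQ
  have hcont := hc.continuousAt (x := 0)
  rw [Metric.continuousAt_iff] at hcont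
  obtain ⟨δ, hδ, hδ'⟩ := hcont ε₀ hε₀
  refine ⟨δ / 2, by positivity, fun h hh => h1 _ ?_⟩
  have := hδ' (x := h) (by rw [dist_zero_right]; linarith)
  rw [hQ.zero, mul_zero, dist_zero_right] at this
  exact this.le

/-- **Nondegeneracy**: the orthogonal of a ball is bounded. -/
theorem exists_bound_of_orth323 (hQ : QData323 k V Q B) (hψ : CharData323 k ψ) (a : k)
    (ha : a ≠ 0) (ε : ℝ) (hε : 0 < ε) :
    ∃ r₀ : ℝ, 0 ≤ r₀ ∧ ∀ y : V, (∀ h : V, ‖h‖ ≤ ε → ψ (a * B y h) = 1) → ‖y‖ ≤ r₀ := by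
  obtain ⟨C, hC⟩ := hQ.nondeg
  obtain ⟨x₀, hx₀⟩ := hψ.nontriv
  have hx₀0 : x₀ ≠ 0 := by
    rintro rfl
    exact hx₀ hψ.zero
  have han : 0 < ‖a‖ := norm_pos_iff.mpr ha
  set M : ℝ := ‖x₀‖ / (‖a‖ * ε) with hM
  have hM0 : 0 ≤ M := by positivity
  refine ⟨max (C * M) 0, le_max_right _ _, fun y hy => ?_⟩
  refine (hC y M fun h hh => ?_).trans (le_max_left _ _)
  by_contra hcon
  rw [not_le] at hcon
  have hβ0 : B y h ≠ 0 := by
    intro h0'
    rw [h0', norm_zero] at hcon
    linarith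
  have hβn : 0 < ‖B y h‖ := norm_pos_iff.mpr hβ0
  have hcn : ‖x₀ / (a * B y h)‖ ≤ ε := by
    rw [norm_div, norm_mul, div_le_iff₀ (by positivity)]
    have h1 : M * (‖a‖ * ε) = ‖x₀‖ := by
      rw [hM]
      field_simp
    have h2 : M * (‖a‖ * ε) ≤ ‖B y h‖ * (‖a‖ * ε) :=
      mul_le_mul_of_nonneg_right hcon.le (by positivity)
    calc ‖x₀‖ = M * (‖a‖ * ε) := h1.symm
      _ ≤ ‖B y h‖ * (‖a‖ * ε) := h2
      _ = ε * (‖a‖ * ‖B y h‖) := by ring
  have h1 := hy ((x₀ / (a * B y h)) • h) (by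
    rw [norm_smul]
    calc ‖x₀ / (a * B y h)‖ * ‖h‖ ≤ ε * 1 := mul_le_mul hcn hh (norm_nonneg _) hε.le
      _ = ε := mul_one _)
  rw [hQ.B_smul] at h1
  have h2 : a * (x₀ / (a * B y h) * B y h) = x₀ := by
    field_simp
  rw [h2] at h1
  exact hx₀ h1

variable [ProperSpace V] [SecondCountableTopology V] [MeasurableSpace V] [BorelSpace V]
variable (ν : Measure V) [ν.IsAddLeftInvariant] [IsFiniteMeasureOnCompacts ν]
  [ν.IsOpenPosMeasure] [SFinite ν]

theorem CharData323.sub (hψ : CharData323 k ψ) (x y : k) : ψ (x - y) = ψ x * ψ (-y) := by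
  rw [sub_eq_add_neg, hψ.mul]

/-- **Stabilisation** of the truncated Gauss integrals. -/
theorem exists_stab323 (hQ : QData323 k V Q B) (hψ : CharData323 k ψ) (a : k) (ha : a ≠ 0) :
    ∃ r₁ : ℝ, 0 < r₁ ∧ ∀ r : ℝ, r₁ ≤ r →
      ∫ y, cut323 r y * ψ (a * Q y) ∂ν = ∫ y, cut323 r₁ y * ψ (a * Q y) ∂ν := by
  obtain ⟨ε, hε, hεQ⟩ := exists_eps_Q323 hQ hψ a
  obtain ⟨r₀, hr₀, hr₀'⟩ := exists_bound_of_orth323 hQ hψ a ha ε hε
  have hr₁ : 0 < max r₀ ε := lt_of_lt_of_le hε (le_max_right _ _)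
  refine ⟨max r₀ ε, hr₁, fun r hr => ?_⟩
  have hr0 : 0 < r := lt_of_lt_of_le hr₁ hr
  have hεr₁ : ε ≤ max r₀ ε := le_max_right _ _
  have hεr : ε ≤ r := hεr₁.trans hr
  have hcf : Continuous fun y : V => ψ (a * Q y) :=
    hψ.cont.comp (continuous_const.mul hQ.contQ)
  -- integrability
  have hi : ∀ ρ : ℝ, 0 < ρ → Integrable (fun y : V => cut323 ρ y * ψ (a * Q y)) ν := by
    intro ρ hρ
    exact ((continuous_cut323 hρ).mul hcf).integrable_of_hasCompactSupport
      ((hasCompactSupport_cut323 ρ).mul_right)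
  -- the difference
  set D : V → ℂ := fun y => cut323 r y - cut323 (max r₀ ε) y with hD
  have hDadd : ∀ y h : V, ‖h‖ ≤ ε → D (y + h) = D y := by
    intro y h hh
    simp only [hD]
    rw [cut_add323 (hh.trans hεr), cut_add323 (hh.trans hεr₁)]
  have hDne : ∀ y : V, D y ≠ 0 → r₀ < ‖y‖ := by
    intro y hy
    by_contra hcon
    rw [not_lt] at hcon
    apply hy
    have h1 : ‖y‖ ≤ max r₀ ε := hcon.trans (le_max_left _ _)
    simp only [hD]
    rw [cut_of_le323 h1, cut_of_le323 (h1.trans hr), sub_self]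
  have hDc : Continuous D := (continuous_cut323 hr0).sub (continuous_cut323 hr₁)
  set I : ℂ := ∫ y, D y * ψ (a * Q y) ∂ν with hI
  have hIeq : I = ∫ y, cut323 r y * ψ (a * Q y) ∂ν
      - ∫ y, cut323 (max r₀ ε) y * ψ (a * Q y) ∂ν := by
    rw [hI, ← integral_sub (hi r hr0) (hi _ hr₁)]
    refine integral_congr_ae (Filter.Eventually.of_forall fun y => ?_)
    simp only [hD]
    ring
  -- (a) translation
  have ha' : ∀ h : V, ‖h‖ ≤ ε → I = ∫ y, D y * ψ (a * Q y) * ψ (a * B y h) ∂ν := by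
    intro h hh
    have h1 := integral_add_right_eq_self (μ := ν) (fun y => D y * ψ (a * Q y)) h
    rw [hI, ← h1]
    refine integral_congr_ae (Filter.Eventually.of_forall fun y => ?_)
    show D (y + h) * ψ (a * Q (y + h)) = D y * ψ (a * Q y) * ψ (a * B y h)
    rw [hDadd y h hh, hQ.add]
    have e : a * (Q y + B y h + Q h) = a * Q y + a * B y h + a * Q h := by ring
    rw [e, hψ.mul, hψ.mul, hεQ h hh]
    ring
  -- (b) average over the ball of radius `ε`
  have hKc : Continuous fun p : V × V =>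
      cut323 ε p.1 * (D p.2 * ψ (a * Q p.2) * ψ (a * B p.2 p.1)) := by
    have c1 : Continuous fun p : V × V => cut323 ε p.1 :=
      (continuous_cut323 hε).comp continuous_fst
    have c2 : Continuous fun p : V × V => D p.2 := hDc.comp continuous_snd
    have c3 : Continuous fun p : V × V => ψ (a * Q p.2) := hcf.comp continuous_snd
    have c4 : Continuous fun p : V × V => ψ (a * B p.2 p.1) := by
      have : Continuous fun p : V × V => B p.2 p.1 :=
        hQ.contB.comp (continuous_snd.prodMk continuous_fst)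
      exact hψ.cont.comp (continuous_const.mul this)
    exact c1.mul ((c2.mul c3).mul c4)
  have hKs : HasCompactSupport fun p : V × V =>
      cut323 ε p.1 * (D p.2 * ψ (a * Q p.2) * ψ (a * B p.2 p.1)) := by
    refine HasCompactSupport.intro
      ((isCompact_closedBall (0 : V) ε).prod (isCompact_closedBall (0 : V) r)) ?_
    intro p hp
    by_contra hne
    apply hp
    have h1 : cut323 ε p.1 ≠ 0 := fun h => hne (by rw [h, zero_mul])
    have h2 : D p.2 ≠ 0 := fun h => hne (by rw [h, zero_mul, zero_mul, mul_zero])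
    have h3 : cut323 r p.2 ≠ 0 := by
      intro h
      apply h2
      simp only [hD]
      have : cut323 (max r₀ ε) p.2 = 0 := by
        by_contra h4
        have h5 := (cut_ne_zero323 h4).trans hr
        rw [cut_of_le323 h5] at h
        exact one_ne_zero h
      rw [h, this, sub_self]
    refine ⟨?_, ?_⟩
    · rw [Metric.mem_closedBall, dist_zero_right]
      exact cut_ne_zero323 h1
    · rw [Metric.mem_closedBall, dist_zero_right]
      exact cut_ne_zero323 h3
  have hint : Integrable (Function.uncurry fun (h y : V) =>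
      cut323 ε h * (D y * ψ (a * Q y) * ψ (a * B y h))) (ν.prod ν) :=
    hKc.integrable_of_hasCompactSupport hKs
  have hswap := integral_integral_swap hint
  have hb : (∫ h, cut323 (V := V) ε h ∂ν) * I = 0 := by
    calc (∫ h, cut323 (V := V) ε h ∂ν) * I = ∫ h, cut323 ε h * I ∂ν := by
          rw [integral_mul_const]
      _ = ∫ h, ∫ y, cut323 ε h * (D y * ψ (a * Q y) * ψ (a * B y h)) ∂ν ∂ν := by
          refine integral_congr_ae (Filter.Eventually.of_forall fun h => ?_)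
          show cut323 ε h * I = ∫ y, cut323 ε h * (D y * ψ (a * Q y) * ψ (a * B y h)) ∂ν
          rw [integral_const_mul]
          by_cases hh : ‖h‖ ≤ ε
          · rw [← ha' h hh]
          · rw [cut_of_lt323 (not_le.mp hh), zero_mul, zero_mul]
      _ = ∫ y, ∫ h, cut323 ε h * (D y * ψ (a * Q y) * ψ (a * B y h)) ∂ν ∂ν := hswap
      _ = ∫ _y : V, (0 : ℂ) ∂ν := by
          refine integral_congr_ae (Filter.Eventually.of_forall fun y => ?_)
          show ∫ h, cut323 ε h * (D y * ψ (a * Q y) * ψ (a * B y h)) ∂ν = 0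
          by_cases hy : D y = 0
          · simp [hy]
          · have hlt := hDne y hy
            have hex : ∃ h₀ : V, ‖h₀‖ ≤ ε ∧ ψ (a * B y h₀) ≠ 1 := by
              by_contra hcon
              push Not at hcon
              exact absurd (hr₀' y hcon) (not_le.mpr hlt)
            obtain ⟨h₀, hh₀, hne⟩ := hex
            have horth := integral_cut_mul_eq_zero323 ν (r := ε) (fun h => ψ (a * B y h))
              (fun x x' => by
                show ψ (a * B y (x + x')) = ψ (a * B y x) * ψ (a * B y x')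
                rw [hQ.B_add, mul_add, hψ.mul]) h₀ hh₀ hne
            have e : ∀ h : V, cut323 ε h * (D y * ψ (a * Q y) * ψ (a * B y h))
                = (D y * ψ (a * Q y)) * (cut323 ε h * ψ (a * B y h)) := fun h => by ring
            simp only [e]
            rw [integral_const_mul, horth, mul_zero]
      _ = 0 := integral_zero _ _
  have hI0 : I = 0 := by
    rcases mul_eq_zero.mp hb with h | h
    · exact absurd h (integral_cut_ne_zero323 ν hε)
    · exact h
  rw [hI0] at hIeq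
  exact (sub_eq_zero.mp hIeq.symm)

/-- **The Fourier transform of a Schwartz--Bruhat function vanishes outside a ball.** -/
theorem ft_eq_zero_of_large323 (hQ : QData323 k V Q B) (hψ : CharData323 k ψ) (Φ : V → ℂ)
    (h1 : IsLocallyConstant Φ) (h2 : HasCompactSupport Φ) :
    ∃ r₂ : ℝ, 0 ≤ r₂ ∧ ∀ y : V, r₂ < ‖y‖ → ∫ z, Φ z * ψ (B y z) ∂ν = 0 := by
  obtain ⟨ε, hε, hΦ⟩ := exists_unif_locConst323 Φ h1 h2
  obtain ⟨r₀, hr₀, hr₀'⟩ := exists_bound_of_orth323 hQ hψ 1 one_ne_zero ε hε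
  refine ⟨r₀, hr₀, fun y hy => ?_⟩
  have hex : ∃ h₀ : V, ‖h₀‖ ≤ ε ∧ ψ (1 * B y h₀) ≠ 1 := by
    by_contra hcon
    push Not at hcon
    exact absurd (hr₀' y hcon) (not_le.mpr hy)
  obtain ⟨h₀, hh₀, hne⟩ := hex
  rw [one_mul] at hne
  have h3 := integral_add_right_eq_self (μ := ν) (fun z => Φ z * ψ (B y z)) h₀
  have h4 : ∀ z : V, Φ (z + h₀) * ψ (B y (z + h₀)) = ψ (B y h₀) * (Φ z * ψ (B y z)) := by
    intro z
    rw [hΦ z h₀ hh₀, hQ.B_add, hψ.mul]
    ring
  simp only [h4] at h3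
  rw [integral_const_mul] at h3
  have h5 : (ψ (B y h₀) - 1) * ∫ z, Φ z * ψ (B y z) ∂ν = 0 := by
    rw [sub_mul, one_mul, h3, sub_self]
  rcases mul_eq_zero.mp h5 with h6 | h6
  · exact absurd (sub_eq_zero.mp h6) hne
  · exact h6

/-- **THE GAUSS IDENTITY**, abstract form. -/
theorem gauss_identity323 (hQ : QData323 k V Q B) (hψ : CharData323 k ψ) (a : k) (ha : a ≠ 0) :
    ∃ g : ℂ, ∀ Φ : V → ℂ, IsLocallyConstant Φ → HasCompactSupport Φ → ∀ ξ : V,
      ∫ y, (ψ (a * Q y) * ∫ z, Φ z * ψ (B y z) ∂ν) * ψ (B ξ y) ∂ν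
        = g * ∫ z, Φ z * ψ (-(Q (z + ξ)) / a) ∂ν := by
  obtain ⟨r₁, hr₁, hstab⟩ := exists_stab323 ν hQ hψ a ha
  refine ⟨∫ y, cut323 r₁ y * ψ (a * Q y) ∂ν, fun Φ h1 h2 ξ => ?_⟩
  obtain ⟨r₂, hr₂, hft⟩ := ft_eq_zero_of_large323 ν hQ hψ Φ h1 h2
  obtain ⟨ρ, hρ, hΦρ⟩ := exists_norm_le_of_ne_zero323 Φ h2
  have han : 0 < ‖a‖ := norm_pos_iff.mpr ha
  set r : ℝ := max r₁ (max r₂ ((ρ + ‖ξ‖) / ‖a‖)) with hr
  have hrr₁ : r₁ ≤ r := le_max_left _ _
  have hrr₂ : r₂ ≤ r := (le_max_left _ _).trans (le_max_right _ _)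
  have hrr₃ : (ρ + ‖ξ‖) / ‖a‖ ≤ r := (le_max_right _ _).trans (le_max_right _ _)
  have hr0 : 0 < r := lt_of_lt_of_le hr₁ hrr₁
  have hcf : Continuous fun y : V => ψ (a * Q y) :=
    hψ.cont.comp (continuous_const.mul hQ.contQ)
  have hΦc : Continuous Φ := h1.continuous
  -- the kernel
  have hKc : Continuous fun p : V × V =>
      cut323 r p.1 * ψ (a * Q p.1) * ψ (B ξ p.1) * (Φ p.2 * ψ (B p.1 p.2)) := by
    have c1 : Continuous fun p : V × V => cut323 r p.1 :=
      (continuous_cut323 hr0).comp continuous_fst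
    have c2 : Continuous fun p : V × V => ψ (a * Q p.1) := hcf.comp continuous_fst
    have c3 : Continuous fun p : V × V => ψ (B ξ p.1) := by
      have : Continuous fun p : V × V => B ξ p.1 :=
        hQ.contB.comp (continuous_const.prodMk continuous_fst)
      exact hψ.cont.comp this
    have c4 : Continuous fun p : V × V => Φ p.2 := hΦc.comp continuous_snd
    have c5 : Continuous fun p : V × V => ψ (B p.1 p.2) := hψ.cont.comp hQ.contB
    exact ((c1.mul c2).mul c3).mul (c4.mul c5)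
  have hKs : HasCompactSupport fun p : V × V =>
      cut323 r p.1 * ψ (a * Q p.1) * ψ (B ξ p.1) * (Φ p.2 * ψ (B p.1 p.2)) := by
    refine HasCompactSupport.intro ((isCompact_closedBall (0 : V) r).prod h2.isCompact) ?_
    intro p hp
    by_contra hne
    apply hp
    have e1 : cut323 r p.1 ≠ 0 := fun h => hne (by rw [h, zero_mul, zero_mul, zero_mul])
    have e2 : Φ p.2 ≠ 0 := fun h => hne (by rw [h, zero_mul, mul_zero])
    refine ⟨?_, subset_tsupport _ e2⟩
    rw [Metric.mem_closedBall, dist_zero_right]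
    exact cut_ne_zero323 e1
  have hint : Integrable (Function.uncurry fun (y z : V) =>
      cut323 r y * ψ (a * Q y) * ψ (B ξ y) * (Φ z * ψ (B y z))) (ν.prod ν) :=
    hKc.integrable_of_hasCompactSupport hKs
  have hswap := integral_integral_swap hint
  -- Step 1
  have step1 : ∀ y : V, (ψ (a * Q y) * ∫ z, Φ z * ψ (B y z) ∂ν) * ψ (B ξ y)
      = ∫ z, cut323 r y * ψ (a * Q y) * ψ (B ξ y) * (Φ z * ψ (B y z)) ∂ν := by
    intro y
    rw [integral_const_mul]
    by_cases hy : ‖y‖ ≤ r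
    · rw [cut_of_le323 hy]
      ring
    · rw [cut_of_lt323 (not_le.mp hy), hft y (lt_of_le_of_lt hrr₂ (not_le.mp hy))]
      ring
  -- Step 3
  have step3 : ∀ z : V, ∫ y, cut323 r y * ψ (a * Q y) * ψ (B ξ y) * (Φ z * ψ (B y z)) ∂ν
      = (∫ y, cut323 r₁ y * ψ (a * Q y) ∂ν) * (Φ z * ψ (-(Q (z + ξ)) / a)) := by
    intro z
    by_cases hz : Φ z = 0
    · simp [hz]
    · have hzρ := hΦρ z hz
      set u : V := z + ξ with hu
      set w : V := a⁻¹ • u with hw
      have hwn : ‖w‖ ≤ r := by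
        rw [hw, norm_smul, norm_inv]
        have h3 : ‖u‖ ≤ ρ + ‖ξ‖ := (norm_add_le _ _).trans (by linarith)
        calc ‖a‖⁻¹ * ‖u‖ ≤ ‖a‖⁻¹ * (ρ + ‖ξ‖) :=
              mul_le_mul_of_nonneg_left h3 (inv_nonneg.mpr han.le)
          _ = (ρ + ‖ξ‖) / ‖a‖ := by rw [div_eq_inv_mul]
          _ ≤ r := hrr₃
      have key : ∀ y : V, cut323 r y * ψ (a * Q y) * ψ (B ξ y) * (Φ z * ψ (B y z))
          = (Φ z * ψ (-(Q u) / a)) * (cut323 r (y + w) * ψ (a * Q (y + w))) := by
        intro y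
        rw [cut_add323 hwn]
        have e1 : a * Q (y + w) = a * Q y + (B ξ y + B y z) + Q u / a := by
          rw [hQ.add, hw, hQ.B_smul, hQ.Q_smul, hu, hQ.B_add, hQ.B_symm ξ y]
          field_simp
          ring
        have e2 : ψ (a * Q (y + w)) = ψ (a * Q y) * (ψ (B ξ y) * ψ (B y z)) * ψ (Q u / a) := by
          rw [e1, hψ.mul, hψ.mul, hψ.mul]
        have e3 : ψ (-(Q u) / a) * ψ (Q u / a) = 1 := by
          rw [← hψ.mul, neg_div, neg_add_cancel, hψ.zero]
        rw [e2]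
        calc cut323 r y * ψ (a * Q y) * ψ (B ξ y) * (Φ z * ψ (B y z))
            = cut323 r y * ψ (a * Q y) * ψ (B ξ y) * (Φ z * ψ (B y z)) * 1 := by ring
          _ = cut323 r y * ψ (a * Q y) * ψ (B ξ y) * (Φ z * ψ (B y z))
                * (ψ (-(Q u) / a) * ψ (Q u / a)) := by rw [e3]
          _ = _ := by ring
      simp only [key]
      rw [integral_const_mul,
        integral_add_right_eq_self (μ := ν) (fun y => cut323 r y * ψ (a * Q y)) w,
        hstab r hrr₁]
      ring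
  calc ∫ y, (ψ (a * Q y) * ∫ z, Φ z * ψ (B y z) ∂ν) * ψ (B ξ y) ∂ν
      = ∫ y, ∫ z, cut323 r y * ψ (a * Q y) * ψ (B ξ y) * (Φ z * ψ (B y z)) ∂ν ∂ν := by
        refine integral_congr_ae (Filter.Eventually.of_forall fun y => ?_)
        exact step1 y
    _ = ∫ z, ∫ y, cut323 r y * ψ (a * Q y) * ψ (B ξ y) * (Φ z * ψ (B y z)) ∂ν ∂ν := hswap
    _ = ∫ z, (∫ y, cut323 r₁ y * ψ (a * Q y) ∂ν) * (Φ z * ψ (-(Q (z + ξ)) / a)) ∂ν := by
        refine integral_congr_ae (Filter.Eventually.of_forall fun z => ?_)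
        exact step3 z
    _ = (∫ y, cut323 r₁ y * ψ (a * Q y) ∂ν) * ∫ z, Φ z * ψ (-(Q (z + ξ)) / a) ∂ν := by
        rw [integral_const_mul]

end Core

end Fermat.Agent.LT.A2.H323

end
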