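import Mathlib
import Fermat.Agent.LT.A2.H54.LocFinSpec
import Fermat.Agent.LT.H11.LC
import Fermat.Agent.LT.H11.SC
import Fermat.Agent.LT.A2.H323.Gauss.Core

/-!
# Row LT, tower A2, leaf A2.03.1.1.06.05 `LF54.LeafGauss` (helper323), OFF-MAIN : THE LEAF

`leafGauss323 : LF54.LeafGauss`, VERBATIM against `LT/A2/H54/LocFinSpec.lean` (helper54,
sha256 8ccd9c5c): THE GAUSS IDENTITY of Weil at a finite place,

    FT(ψ(a Q) · FT Φ)(ξ) = G(a) ∫ Φ(z) ψ(-Q(z + ξ) / a) dz,

from the abstract form `gauss_identity323` (`Core.lean`) for `V = k × k`, `ν = μ × μ`.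

Reusable for the other leaves of the station (FT-SB, INV, COV, ...):
* `properSpace_adicCompletion323` : `K_v` is a proper metric space;
* `isUltrametricDist_prod323` : `k × k` is ultrametric;
* `qData323` : the binary form `x² + t x y + n y²` with `t² - 4 n ≠ 0` is `QData323`;
* `haarInst323` : the Mathlib instances of a measure with `WX467.IsHaarL`;
* `gaussP_of_ctx323` : the Gauss identity over any proper second countable ultrametric normed
  field.
-/

set_option autoImplicit false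
set_option linter.style.haveILetI false
set_option linter.unusedSectionVars false

open IsDedekindDomain NumberField MeasureTheory
open Fermat.Agent.LT.A2 Fermat.Agent.LT.A2.WX467 Fermat.Agent.LT.A2.LF54

noncomputable section

namespace Fermat.Agent.LT.A2.H323

section Abstract

variable {k : Type} [NormedField k]

/-- `k × k` is ultrametric. -/
theorem isUltrametricDist_prod323 [IsUltrametricDist k] : IsUltrametricDist (k × k) := by
  apply IsUltrametricDist.isUltrametricDist_of_forall_norm_add_le_max_norm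
  intro x y
  rw [Prod.norm_def, Prod.norm_def, Prod.norm_def]
  apply max_le
  · calc ‖(x + y).1‖ = ‖x.1 + y.1‖ := rfl
      _ ≤ max ‖x.1‖ ‖y.1‖ := IsUltrametricDist.norm_add_le_max _ _
      _ ≤ _ := max_le_max (le_max_left _ _) (le_max_left _ _)
  · calc ‖(x + y).2‖ = ‖x.2 + y.2‖ := rfl
      _ ≤ max ‖x.2‖ ‖y.2‖ := IsUltrametricDist.norm_add_le_max _ _
      _ ≤ _ := max_le_max (le_max_right _ _) (le_max_right _ _)

/-- The binary quadratic form with nonzero discriminant is a nondegenerate quadratic form. -/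
theorem qData323 (t n : k) (hdisc : t ^ 2 - 4 * n ≠ 0) :
    QData323 k (k × k) (qfL t n) (fun y z => bfL t n y z) where
  contQ := by
    unfold qfL
    fun_prop
  contB := by
    unfold bfL qfL
    fun_prop
  add := fun y z => by
    simp only [bfL]
    ring
  B_add := fun y z z' => by
    simp only [bfL, qfL, Prod.fst_add, Prod.snd_add]
    ring
  B_symm := fun y z => by
    simp only [bfL, qfL, Prod.fst_add, Prod.snd_add]
    ring
  B_smul := fun c y z => by
    simp only [bfL, qfL, Prod.fst_add, Prod.snd_add, Prod.smul_fst, Prod.smul_snd, smul_eq_mul]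
    ring
  Q_smul := fun c y => by
    simp only [qfL, Prod.smul_fst, Prod.smul_snd, smul_eq_mul]
    ring
  nondeg := by
    have hD : 0 < ‖t ^ 2 - 4 * n‖ := norm_pos_iff.mpr hdisc
    refine ⟨(‖t‖ + ‖(2 : k)‖ * ‖n‖ + ‖(2 : k)‖) / ‖t ^ 2 - 4 * n‖, fun y M hy => ?_⟩
    have h1 := hy (1, 0) (by rw [Prod.norm_def]; simp)
    have h2 := hy (0, 1) (by rw [Prod.norm_def]; simp)
    have e1 : bfL t n y (1, 0) = 2 * y.1 + t * y.2 := by
      simp only [bfL, qfL, Prod.fst_add, Prod.snd_add]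
      ring
    have e2 : bfL t n y (0, 1) = t * y.1 + 2 * n * y.2 := by
      simp only [bfL, qfL, Prod.fst_add, Prod.snd_add]
      ring
    rw [e1] at h1
    rw [e2] at h2
    have hM : 0 ≤ M := (norm_nonneg _).trans h1
    have f1 : (t ^ 2 - 4 * n) * y.1
        = t * (t * y.1 + 2 * n * y.2) - 2 * n * (2 * y.1 + t * y.2) := by ring
    have f2 : (t ^ 2 - 4 * n) * y.2
        = t * (2 * y.1 + t * y.2) - 2 * (t * y.1 + 2 * n * y.2) := by ring
    have g1 : ‖t ^ 2 - 4 * n‖ * ‖y.1‖ ≤ (‖t‖ + ‖(2 : k)‖ * ‖n‖) * M := by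
      rw [← norm_mul, f1]
      calc ‖t * (t * y.1 + 2 * n * y.2) - 2 * n * (2 * y.1 + t * y.2)‖
          ≤ ‖t * (t * y.1 + 2 * n * y.2)‖ + ‖2 * n * (2 * y.1 + t * y.2)‖ := norm_sub_le _ _
        _ = ‖t‖ * ‖t * y.1 + 2 * n * y.2‖ + ‖(2 : k)‖ * ‖n‖ * ‖2 * y.1 + t * y.2‖ := by
            rw [norm_mul, norm_mul, norm_mul]
        _ ≤ ‖t‖ * M + ‖(2 : k)‖ * ‖n‖ * M := by gcongr
        _ = (‖t‖ + ‖(2 : k)‖ * ‖n‖) * M := by ring
    have g2 : ‖t ^ 2 - 4 * n‖ * ‖y.2‖ ≤ (‖t‖ + ‖(2 : k)‖) * M := by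
      rw [← norm_mul, f2]
      calc ‖t * (2 * y.1 + t * y.2) - 2 * (t * y.1 + 2 * n * y.2)‖
          ≤ ‖t * (2 * y.1 + t * y.2)‖ + ‖2 * (t * y.1 + 2 * n * y.2)‖ := norm_sub_le _ _
        _ = ‖t‖ * ‖2 * y.1 + t * y.2‖ + ‖(2 : k)‖ * ‖t * y.1 + 2 * n * y.2‖ := by
            rw [norm_mul, norm_mul]
        _ ≤ ‖t‖ * M + ‖(2 : k)‖ * M := by gcongr
        _ = (‖t‖ + ‖(2 : k)‖) * M := by ring
    have p1 : 0 ≤ ‖(2 : k)‖ * M := mul_nonneg (norm_nonneg _) hM
    have p2 : 0 ≤ ‖(2 : k)‖ * ‖n‖ * M := mul_nonneg (mul_nonneg (norm_nonneg _) (norm_nonneg _)) hM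
    rw [Prod.norm_def, div_mul_eq_mul_div, le_div_iff₀ hD]
    rcases le_total ‖y.1‖ ‖y.2‖ with h | h
    · rw [max_eq_right h]
      nlinarith
    · rw [max_eq_left h]
      nlinarith

/-- The Mathlib instances of a measure with `WX467.IsHaarL`. -/
theorem haarInst323 [LocallyCompactSpace k] (μ : @Measure k (borel k)) (h : IsHaarL μ) :
    letI : MeasurableSpace k := borel k
    μ.IsAddLeftInvariant ∧ IsFiniteMeasureOnCompacts μ ∧ μ.IsOpenPosMeasure := by
  letI : MeasurableSpace k := borel k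
  haveI : BorelSpace k := ⟨rfl⟩
  obtain ⟨hinv, hfin, hpos⟩ := h
  refine ⟨?_, ⟨hfin⟩, ⟨fun U hU hne => (hpos U hU hne).ne'⟩⟩
  refine (forall_measure_preimage_add_iff μ).1 fun x A _ => ?_
  have e : (fun y => x + y) ⁻¹' A = (fun y => -x + y) '' A := by
    rw [Set.image_add_left, neg_neg]
  rw [e]
  exact hinv (-x) A

/-- **The Gauss identity** over a proper second countable ultrametric normed field. -/
theorem gaussP_of_ctx323 [IsUltrametricDist k] [ProperSpace k] [SecondCountableTopology k]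
    (t n : k) (ψ : k → ℂ) (μ : @Measure k (borel k)) (h : Ctx t n ψ μ) :
    ∃ G : k → ℂ, GaussP t n ψ μ G := by
  letI : MeasurableSpace k := borel k
  haveI : BorelSpace k := ⟨rfl⟩
  obtain ⟨hdisc, hchar, hhaar⟩ := h
  obtain ⟨i1, i2, i3⟩ := haarInst323 μ hhaar
  haveI := i1
  haveI := i2
  haveI := i3
  haveI : IsUltrametricDist (k × k) := isUltrametricDist_prod323
  have hQ := qData323 t n hdisc
  have hψ : CharData323 k ψ := ⟨hchar.1, hchar.2.1, hchar.2.2.1, hchar.2.2.2⟩
  have key := fun (a : k) (ha : a ≠ 0) => gauss_identity323 (μ.prod μ) hQ hψ a ha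
  choose g hg using key
  classical
  refine ⟨fun a => if ha : a ≠ 0 then g a ha else 0, fun a ha Φ hΦ ξ => ?_⟩
  beta_reduce
  rw [dif_pos ha]
  exact hg a ha Φ hΦ.1 hΦ.2 ξ

end Abstract

/-- `K_v` is a proper metric space. -/
theorem properSpace_adicCompletion323 (K : Type) [Field K] [NumberField K]
    (v : HeightOneSpectrum (𝓞 K)) : ProperSpace (v.adicCompletion K) := by
  haveI := Fermat.Agent.LT.H11.LC.locallyCompactSpace_adicCompletion_h11 K v
  obtain ⟨π, hπ, hπ0⟩ := Submodule.exists_mem_ne_zero_of_ne_bot v.ne_bot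
  have hval : Valued.v (algebraMap K (v.adicCompletion K) (algebraMap (𝓞 K) K π))
      = v.valuation K (algebraMap (𝓞 K) K π) :=
    HeightOneSpectrum.valuedAdicCompletion_eq_valuation' v _
  have hP1 : ‖algebraMap K (v.adicCompletion K) (algebraMap (𝓞 K) K π)‖ < 1 := by
    rw [Valued.toNormedField.norm_lt_one_iff, hval]
    exact (HeightOneSpectrum.valuation_lt_one_iff_mem v π).mpr hπ
  have hP0 : algebraMap K (v.adicCompletion K) (algebraMap (𝓞 K) K π) ≠ 0 := by
    have hπK : algebraMap (𝓞 K) K π ≠ 0 := by simpa using hπ0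
    simpa using hπK
  letI : NontriviallyNormedField (v.adicCompletion K) :=
    { (inferInstance : NormedField (v.adicCompletion K)) with
      non_trivial := ⟨(algebraMap K (v.adicCompletion K) (algebraMap (𝓞 K) K π))⁻¹, by
        rw [norm_inv]
        exact (one_lt_inv₀ (norm_pos_iff.mpr hP0)).mpr hP1⟩ }
  exact ProperSpace.of_nontriviallyNormedField_of_weaklyLocallyCompactSpace (v.adicCompletion K)

/-- **Leaf 05 GAUSS** (`LF54.LeafGauss`). -/
theorem leafGauss323 : LF54.LeafGauss := by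
  intro K _ _ v t n ψ μ hctx
  haveI := properSpace_adicCompletion323 K v
  haveI := Fermat.Agent.LT.H11.SC.secondCountableTopology_adicCompletion_h11 K v
  exact gaussP_of_ctx323 t n ψ μ hctx

end Fermat.Agent.LT.A2.H323

end
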